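import Mathlib

/-!
# PROJECT R (S41), slice R-Amalgam (1): the group `Γ₀(N)[1/q]` and its two copies of `Γ₀(N)`

Ambient group `SL(2, ℚ)`.  For a prime `q ∤ N`:

* `GammaQ N q : Subgroup SL(2, ℚ)`: the matrices with entries in `ℤ[1/q]` whose lower-left entry lies
  in `N ℤ[1/q]`;
* `incA N q : Γ₀(N) →* GammaQ N q`, `[a b; c d] ↦ [a b; c d]`;
* `incB N q : Γ₀(N) →* GammaQ N q`, `g ↦ δ⁻¹ g δ = [a, b / q; q c, d]`, `δ = diag(q, 1)`;
* `inclC N q : Γ₀(N q) →* Γ₀(N)` (inclusion) and `conjC N q : Γ₀(N q) →* Γ₀(N)`,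
  `c ↦ δ c δ⁻¹ = [a, q b; c / q, d]`, with `incA (inclC c) = incB (conjC c)`.
-/

set_option autoImplicit false

open CongruenceSubgroup Matrix.SpecialLinearGroup
open scoped MatrixGroups

noncomputable section

namespace Fermat.Agent.S41.Amalgam

/-! ### `ℤ[1/q]` inside `ℚ` -/

/-- `x ∈ ℤ[1/q]`. -/
def IsQInt (q : ℕ) (x : ℚ) : Prop := ∃ (k : ℕ) (n : ℤ), (q : ℚ) ^ k * x = n

/-- `x ∈ N ℤ[1/q]`. -/
def IsQIntMul (q N : ℕ) (x : ℚ) : Prop := ∃ (k : ℕ) (n : ℤ), (q : ℚ) ^ k * x = N * n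

theorem IsQInt.intCast (q : ℕ) (n : ℤ) : IsQInt q (n : ℚ) := ⟨0, n, by simp⟩

theorem IsQInt.zero (q : ℕ) : IsQInt q 0 := ⟨0, 0, by simp⟩

theorem IsQInt.one (q : ℕ) : IsQInt q 1 := ⟨0, 1, by simp⟩

theorem IsQInt.add {q : ℕ} {x y : ℚ} (hx : IsQInt q x) (hy : IsQInt q y) : IsQInt q (x + y) := by
  obtain ⟨k, n, hn⟩ := hx
  obtain ⟨l, m, hm⟩ := hy
  refine ⟨k + l, (q : ℤ) ^ l * n + (q : ℤ) ^ k * m, ?_⟩
  push_cast
  rw [← hn, ← hm]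
  ring

theorem IsQInt.neg {q : ℕ} {x : ℚ} (hx : IsQInt q x) : IsQInt q (-x) := by
  obtain ⟨k, n, hn⟩ := hx
  refine ⟨k, -n, ?_⟩
  push_cast
  rw [← hn]
  ring

theorem IsQInt.sub {q : ℕ} {x y : ℚ} (hx : IsQInt q x) (hy : IsQInt q y) : IsQInt q (x - y) := by
  rw [sub_eq_add_neg]
  exact hx.add hy.neg

theorem IsQInt.mul {q : ℕ} {x y : ℚ} (hx : IsQInt q x) (hy : IsQInt q y) : IsQInt q (x * y) := by
  obtain ⟨k, n, hn⟩ := hx
  obtain ⟨l, m, hm⟩ := hy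
  refine ⟨k + l, n * m, ?_⟩
  push_cast
  rw [← hn, ← hm]
  ring

theorem IsQIntMul.isQInt {q N : ℕ} {x : ℚ} (hx : IsQIntMul q N x) : IsQInt q x := by
  obtain ⟨k, n, hn⟩ := hx
  exact ⟨k, N * n, by push_cast; exact hn⟩

theorem IsQIntMul.zero (q N : ℕ) : IsQIntMul q N 0 := ⟨0, 0, by simp⟩

theorem IsQIntMul.add {q N : ℕ} {x y : ℚ} (hx : IsQIntMul q N x) (hy : IsQIntMul q N y) :
    IsQIntMul q N (x + y) := by
  obtain ⟨k, n, hn⟩ := hx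
  obtain ⟨l, m, hm⟩ := hy
  refine ⟨k + l, (q : ℤ) ^ l * n + (q : ℤ) ^ k * m, ?_⟩
  push_cast
  have e : (q : ℚ) ^ (k + l) * (x + y)
      = (q : ℚ) ^ l * ((q : ℚ) ^ k * x) + (q : ℚ) ^ k * ((q : ℚ) ^ l * y) := by ring
  rw [e, hn, hm]
  ring

theorem IsQIntMul.neg {q N : ℕ} {x : ℚ} (hx : IsQIntMul q N x) : IsQIntMul q N (-x) := by
  obtain ⟨k, n, hn⟩ := hx
  refine ⟨k, -n, ?_⟩
  push_cast
  have e : (q : ℚ) ^ k * (-x) = -((q : ℚ) ^ k * x) := by ring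
  rw [e, hn]
  ring

theorem IsQIntMul.mul_right {q N : ℕ} {x y : ℚ} (hx : IsQIntMul q N x) (hy : IsQInt q y) :
    IsQIntMul q N (x * y) := by
  obtain ⟨k, n, hn⟩ := hx
  obtain ⟨l, m, hm⟩ := hy
  refine ⟨k + l, n * m, ?_⟩
  push_cast
  have e : (q : ℚ) ^ (k + l) * (x * y) = ((q : ℚ) ^ k * x) * ((q : ℚ) ^ l * y) := by ring
  rw [e, hn, hm]
  ring

theorem IsQIntMul.mul_left {q N : ℕ} {x y : ℚ} (hx : IsQInt q x) (hy : IsQIntMul q N y) :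
    IsQIntMul q N (x * y) := by
  rw [mul_comm]
  exact hy.mul_right hx

/-! ### the group `Γ₀(N)[1/q]` -/

/-- `Γ₀(N)[1/q]`: the matrices in `SL(2, ℚ)` with entries in `ℤ[1/q]` and lower-left entry in
`N ℤ[1/q]`. -/
def GammaQ (N q : ℕ) : Subgroup SL(2, ℚ) where
  carrier := {g | (∀ i j, IsQInt q (g.1 i j)) ∧ IsQIntMul q N (g.1 1 0)}
  one_mem' := by
    refine ⟨fun i j => ?_, ?_⟩
    · fin_cases i <;> fin_cases j <;> simp [IsQInt.one, IsQInt.zero]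
    · simp [IsQIntMul.zero]
  mul_mem' := by
    rintro g h ⟨hg, hg'⟩ ⟨hh, hh'⟩
    refine ⟨fun i j => ?_, ?_⟩
    · rw [coe_mul, Matrix.mul_apply, Fin.sum_univ_two]
      exact ((hg i 0).mul (hh 0 j)).add ((hg i 1).mul (hh 1 j))
    · rw [coe_mul, Matrix.mul_apply, Fin.sum_univ_two]
      exact (hg'.mul_right (hh 0 0)).add (hh'.mul_left (hg 1 1))
  inv_mem' := by
    rintro g ⟨hg, hg'⟩
    refine ⟨fun i j => ?_, ?_⟩
    · rw [coe_inv, Matrix.adjugate_fin_two]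
      fin_cases i <;> fin_cases j <;> simp [hg 0 0, hg 1 1, (hg 0 1).neg, (hg 1 0).neg]
    · rw [coe_inv, Matrix.adjugate_fin_two]
      simpa using hg'.neg

theorem mem_GammaQ {N q : ℕ} {g : SL(2, ℚ)} :
    g ∈ GammaQ N q ↔ (∀ i j, IsQInt q (g.1 i j)) ∧ IsQIntMul q N (g.1 1 0) := Iff.rfl

/-! ### explicit elements of `SL(2, ℚ)` and `SL(2, ℤ)` -/

/-- an element of `SL(2, ℚ)` from its entries -/
def mkQ (a b c d : ℚ) (hdet : a * d - b * c = 1) : SL(2, ℚ) :=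
  ⟨!![a, b; c, d], by rw [Matrix.det_fin_two_of]; exact hdet⟩

@[simp] theorem mkQ_00 (a b c d : ℚ) (h : a * d - b * c = 1) : (mkQ a b c d h).1 0 0 = a := rfl
@[simp] theorem mkQ_01 (a b c d : ℚ) (h : a * d - b * c = 1) : (mkQ a b c d h).1 0 1 = b := rfl
@[simp] theorem mkQ_10 (a b c d : ℚ) (h : a * d - b * c = 1) : (mkQ a b c d h).1 1 0 = c := rfl
@[simp] theorem mkQ_11 (a b c d : ℚ) (h : a * d - b * c = 1) : (mkQ a b c d h).1 1 1 = d := rfl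

theorem det_entries (g : SL(2, ℚ)) : g.1 0 0 * g.1 1 1 - g.1 0 1 * g.1 1 0 = 1 := by
  have := g.2
  rwa [Matrix.det_fin_two] at this

theorem det_entries_int (g : SL(2, ℤ)) : g.1 0 0 * g.1 1 1 - g.1 0 1 * g.1 1 0 = 1 := by
  have := g.2
  rwa [Matrix.det_fin_two] at this

theorem ext_entries {g h : SL(2, ℚ)} (h00 : g.1 0 0 = h.1 0 0) (h01 : g.1 0 1 = h.1 0 1)
    (h10 : g.1 1 0 = h.1 1 0) (h11 : g.1 1 1 = h.1 1 1) : g = h := by
  apply Subtype.ext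
  ext i j
  fin_cases i <;> fin_cases j <;> assumption

theorem mul_00 (g h : SL(2, ℚ)) : (g * h).1 0 0 = g.1 0 0 * h.1 0 0 + g.1 0 1 * h.1 1 0 := by
  rw [coe_mul, Matrix.mul_apply, Fin.sum_univ_two]
theorem mul_01 (g h : SL(2, ℚ)) : (g * h).1 0 1 = g.1 0 0 * h.1 0 1 + g.1 0 1 * h.1 1 1 := by
  rw [coe_mul, Matrix.mul_apply, Fin.sum_univ_two]
theorem mul_10 (g h : SL(2, ℚ)) : (g * h).1 1 0 = g.1 1 0 * h.1 0 0 + g.1 1 1 * h.1 1 0 := by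
  rw [coe_mul, Matrix.mul_apply, Fin.sum_univ_two]
theorem mul_11 (g h : SL(2, ℚ)) : (g * h).1 1 1 = g.1 1 0 * h.1 0 1 + g.1 1 1 * h.1 1 1 := by
  rw [coe_mul, Matrix.mul_apply, Fin.sum_univ_two]

theorem inv_00 (g : SL(2, ℚ)) : (g⁻¹).1 0 0 = g.1 1 1 := by
  rw [coe_inv, Matrix.adjugate_fin_two]; rfl
theorem inv_01 (g : SL(2, ℚ)) : (g⁻¹).1 0 1 = -g.1 0 1 := by
  rw [coe_inv, Matrix.adjugate_fin_two]; rfl
theorem inv_10 (g : SL(2, ℚ)) : (g⁻¹).1 1 0 = -g.1 1 0 := by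
  rw [coe_inv, Matrix.adjugate_fin_two]; rfl
theorem inv_11 (g : SL(2, ℚ)) : (g⁻¹).1 1 1 = g.1 0 0 := by
  rw [coe_inv, Matrix.adjugate_fin_two]; rfl

/-! ### conjugation by `δ = diag(t, 1)` on `SL(2, ℚ)` -/

/-- `g ↦ δ⁻¹ g δ = [a, b / t; t c, d]` for `δ = diag(t, 1)`, `t ≠ 0`. -/
def conjDiag (t : ℚ) (ht : t ≠ 0) : SL(2, ℚ) →* SL(2, ℚ) where
  toFun g := mkQ (g.1 0 0) (g.1 0 1 / t) (t * g.1 1 0) (g.1 1 1) (by
    have := det_entries g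
    field_simp
    linarith)
  map_one' := by
    apply ext_entries <;> simp
  map_mul' g h := by
    apply ext_entries
    · simp only [mkQ_00, mul_00, mkQ_01, mkQ_10]; field_simp
    · simp only [mkQ_01, mul_01, mkQ_00, mkQ_11]; field_simp
    · simp only [mkQ_10, mul_10, mkQ_00, mkQ_11]; ring
    · simp only [mkQ_11, mul_11, mkQ_10, mkQ_01]; field_simp

@[simp] theorem conjDiag_00 (t : ℚ) (ht : t ≠ 0) (g : SL(2, ℚ)) :
    (conjDiag t ht g).1 0 0 = g.1 0 0 := rfl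
@[simp] theorem conjDiag_01 (t : ℚ) (ht : t ≠ 0) (g : SL(2, ℚ)) :
    (conjDiag t ht g).1 0 1 = g.1 0 1 / t := rfl
@[simp] theorem conjDiag_10 (t : ℚ) (ht : t ≠ 0) (g : SL(2, ℚ)) :
    (conjDiag t ht g).1 1 0 = t * g.1 1 0 := rfl
@[simp] theorem conjDiag_11 (t : ℚ) (ht : t ≠ 0) (g : SL(2, ℚ)) :
    (conjDiag t ht g).1 1 1 = g.1 1 1 := rfl

theorem conjDiag_injective (t : ℚ) (ht : t ≠ 0) : Function.Injective (conjDiag t ht) := by
  intro g h hgh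
  have e00 := congrArg (fun x : SL(2, ℚ) => x.1 0 0) hgh
  have e01 := congrArg (fun x : SL(2, ℚ) => x.1 0 1) hgh
  have e10 := congrArg (fun x : SL(2, ℚ) => x.1 1 0) hgh
  have e11 := congrArg (fun x : SL(2, ℚ) => x.1 1 1) hgh
  simp only [conjDiag_00, conjDiag_01, conjDiag_10, conjDiag_11] at e00 e01 e10 e11
  apply ext_entries e00 _ _ e11
  · field_simp at e01; exact e01
  · exact mul_left_cancel₀ ht e10

/-! ### the cast `SL(2, ℤ) → SL(2, ℚ)` -/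

/-- the cast `SL(2, ℤ) →* SL(2, ℚ)` -/
def castQ : SL(2, ℤ) →* SL(2, ℚ) := Matrix.SpecialLinearGroup.map (Int.castRingHom ℚ)

@[simp] theorem castQ_apply (g : SL(2, ℤ)) (i j : Fin 2) : (castQ g).1 i j = (g.1 i j : ℚ) := rfl

theorem castQ_injective : Function.Injective castQ := by
  intro g h hgh
  apply Subtype.ext
  ext i j
  have := congrArg (fun x : SL(2, ℚ) => x.1 i j) hgh
  simpa using this

theorem Gamma0_dvd {N : ℕ} (g : Gamma0 N) : (N : ℤ) ∣ g.1.1 1 0 := by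
  have := g.2
  rw [Gamma0_mem] at this
  exact (ZMod.intCast_zmod_eq_zero_iff_dvd _ _).mp this

theorem castQ_mem_GammaQ {N : ℕ} (q : ℕ) (g : Gamma0 N) : castQ g.1 ∈ GammaQ N q := by
  refine ⟨fun i j => IsQInt.intCast q _, ?_⟩
  obtain ⟨n, hn⟩ := Gamma0_dvd g
  refine ⟨0, n, ?_⟩
  rw [castQ_apply, hn]
  push_cast
  ring

/-- `incA : Γ₀(N) →* Γ₀(N)[1/q]`, the tautological inclusion. -/
def incA (N q : ℕ) : Gamma0 N →* GammaQ N q :=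
  (castQ.comp (Gamma0 N).subtype).codRestrict (GammaQ N q) (castQ_mem_GammaQ q)

@[simp] theorem incA_apply (N q : ℕ) (g : Gamma0 N) (i j : Fin 2) :
    (incA N q g).1.1 i j = (g.1.1 i j : ℚ) := rfl

theorem incA_coe (N q : ℕ) (g : Gamma0 N) : ((incA N q g : GammaQ N q) : SL(2, ℚ)) = castQ g.1 := rfl

theorem incA_injective (N q : ℕ) : Function.Injective (incA N q) := by
  intro g h hgh
  apply Subtype.ext
  apply castQ_injective
  exact congrArg Subtype.val hgh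

theorem conjDiag_castQ_mem_GammaQ {N q : ℕ} (hq : q ≠ 0) (g : Gamma0 N) :
    conjDiag (q : ℚ) (Nat.cast_ne_zero.mpr hq) (castQ g.1) ∈ GammaQ N q := by
  have hq' : (q : ℚ) ≠ 0 := Nat.cast_ne_zero.mpr hq
  refine ⟨fun i j => ?_, ?_⟩
  · fin_cases i <;> fin_cases j
    · exact IsQInt.intCast q _
    · refine ⟨1, g.1.1 0 1, ?_⟩
      show (q : ℚ) ^ 1 * ((g.1.1 0 1 : ℚ) / q) = _
      field_simp
    · show IsQInt q ((q : ℚ) * (g.1.1 1 0 : ℚ))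
      exact (IsQInt.intCast q (q : ℤ)).mul (IsQInt.intCast q _)
    · exact IsQInt.intCast q _
  · obtain ⟨n, hn⟩ := Gamma0_dvd g
    refine ⟨0, q * n, ?_⟩
    show (q : ℚ) ^ 0 * ((q : ℚ) * (g.1.1 1 0 : ℚ)) = _
    rw [hn]
    push_cast
    ring

/-- `incB : Γ₀(N) →* Γ₀(N)[1/q]`, `g ↦ δ⁻¹ g δ = [a, b / q; q c, d]`. -/
def incB (N q : ℕ) [NeZero q] : Gamma0 N →* GammaQ N q :=
  ((conjDiag (q : ℚ) (Nat.cast_ne_zero.mpr (NeZero.ne q))).comp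
    (castQ.comp (Gamma0 N).subtype)).codRestrict (GammaQ N q)
    (conjDiag_castQ_mem_GammaQ (NeZero.ne q))

theorem incB_coe (N q : ℕ) [NeZero q] (g : Gamma0 N) :
    ((incB N q g : GammaQ N q) : SL(2, ℚ))
      = conjDiag (q : ℚ) (Nat.cast_ne_zero.mpr (NeZero.ne q)) (castQ g.1) := rfl

@[simp] theorem incB_00 (N q : ℕ) [NeZero q] (g : Gamma0 N) :
    (incB N q g).1.1 0 0 = (g.1.1 0 0 : ℚ) := rfl
@[simp] theorem incB_01 (N q : ℕ) [NeZero q] (g : Gamma0 N) :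
    (incB N q g).1.1 0 1 = (g.1.1 0 1 : ℚ) / q := rfl
@[simp] theorem incB_10 (N q : ℕ) [NeZero q] (g : Gamma0 N) :
    (incB N q g).1.1 1 0 = (q : ℚ) * (g.1.1 1 0 : ℚ) := rfl
@[simp] theorem incB_11 (N q : ℕ) [NeZero q] (g : Gamma0 N) :
    (incB N q g).1.1 1 1 = (g.1.1 1 1 : ℚ) := rfl

theorem incB_injective (N q : ℕ) [NeZero q] : Function.Injective (incB N q) := by
  intro g h hgh
  apply Subtype.ext
  apply castQ_injective
  apply conjDiag_injective (q : ℚ) (Nat.cast_ne_zero.mpr (NeZero.ne q))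
  exact congrArg Subtype.val hgh

/-! ### the two maps `Γ₀(N q) → Γ₀(N)` -/

/-- an element of `SL(2, ℤ)` from its entries -/
def mkZ (a b c d : ℤ) (hdet : a * d - b * c = 1) : SL(2, ℤ) :=
  ⟨!![a, b; c, d], by rw [Matrix.det_fin_two_of]; exact hdet⟩

@[simp] theorem mkZ_00 (a b c d : ℤ) (h : a * d - b * c = 1) : (mkZ a b c d h).1 0 0 = a := rfl
@[simp] theorem mkZ_01 (a b c d : ℤ) (h : a * d - b * c = 1) : (mkZ a b c d h).1 0 1 = b := rfl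
@[simp] theorem mkZ_10 (a b c d : ℤ) (h : a * d - b * c = 1) : (mkZ a b c d h).1 1 0 = c := rfl
@[simp] theorem mkZ_11 (a b c d : ℤ) (h : a * d - b * c = 1) : (mkZ a b c d h).1 1 1 = d := rfl

/-- an element of `Γ₀(N)` from its entries -/
def mkG (N : ℕ) (a b c d : ℤ) (hdet : a * d - b * c = 1) (hc : (N : ℤ) ∣ c) : Gamma0 N :=
  ⟨mkZ a b c d hdet, by
    rw [Gamma0_mem]
    show ((c : ℤ) : ZMod N) = 0
    rwa [ZMod.intCast_zmod_eq_zero_iff_dvd]⟩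

@[simp] theorem mkG_00 (N : ℕ) (a b c d : ℤ) (h : a * d - b * c = 1) (hc : (N : ℤ) ∣ c) :
    (mkG N a b c d h hc).1.1 0 0 = a := rfl
@[simp] theorem mkG_01 (N : ℕ) (a b c d : ℤ) (h : a * d - b * c = 1) (hc : (N : ℤ) ∣ c) :
    (mkG N a b c d h hc).1.1 0 1 = b := rfl
@[simp] theorem mkG_10 (N : ℕ) (a b c d : ℤ) (h : a * d - b * c = 1) (hc : (N : ℤ) ∣ c) :
    (mkG N a b c d h hc).1.1 1 0 = c := rfl
@[simp] theorem mkG_11 (N : ℕ) (a b c d : ℤ) (h : a * d - b * c = 1) (hc : (N : ℤ) ∣ c) :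
    (mkG N a b c d h hc).1.1 1 1 = d := rfl

theorem ext_entries_int {g h : SL(2, ℤ)} (h00 : g.1 0 0 = h.1 0 0) (h01 : g.1 0 1 = h.1 0 1)
    (h10 : g.1 1 0 = h.1 1 0) (h11 : g.1 1 1 = h.1 1 1) : g = h := by
  apply Subtype.ext
  ext i j
  fin_cases i <;> fin_cases j <;> assumption

theorem Gamma0_le_of_dvd {M N : ℕ} (h : N ∣ M) : Gamma0 M ≤ Gamma0 N := by
  intro g hg
  rw [Gamma0_mem, ZMod.intCast_zmod_eq_zero_iff_dvd] at hg ⊢
  exact dvd_trans (Int.natCast_dvd_natCast.mpr h) hg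

/-- the inclusion `Γ₀(N q) →* Γ₀(N)` -/
def inclC (N q : ℕ) : Gamma0 (N * q) →* Gamma0 N :=
  Subgroup.inclusion (Gamma0_le_of_dvd (Dvd.intro q rfl))

@[simp] theorem inclC_coe (N q : ℕ) (c : Gamma0 (N * q)) : (inclC N q c).1 = c.1 := rfl

theorem inclC_injective (N q : ℕ) : Function.Injective (inclC N q) :=
  Subgroup.inclusion_injective _

end Fermat.Agent.S41.Amalgam
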