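import Fermat.Agent.S41.Amalgam.Generation

/-!
# PROJECT R (S41), slice R-Amalgam (7): the universal property of `Γ₀(N)[1/q]` and the Ihara kernel

* `exists_unique_lift`: homomorphisms `φA φB : Γ₀(N) →* H` with `φA c = φB (δ c δ⁻¹)` for all
  `c ∈ Γ₀(N q)` glue to a unique `Φ : Γ₀(N)[1/q] →* H` with `Φ ∘ incA = φA`, `Φ ∘ incB = φB`;
* `ihara_kernel`: in the additive language of S30 (`Additive (Γ₀(N)) →+ A`): if
  `χ₁ c + χ₂ (δ c δ⁻¹) = 0` for all `c ∈ Γ₀(N q)` then there is `Φ : Additive (Γ₀(N)[1/q]) →+ A`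
  with `Φ ∘ incA = χ₁` and `Φ ∘ incB = - χ₂`.
-/

set_option autoImplicit false

open CongruenceSubgroup Matrix.SpecialLinearGroup Monoid
open scoped MatrixGroups

noncomputable section

namespace Fermat.Agent.S41.Amalgam

/-- a pair of homomorphisms as a family over `Bool` -/
def pairHom {N : ℕ} {H : Type*} [Group H] (φA φB : Gamma0 N →* H) : ∀ i : Bool, VG N i →* H
  | false => φA
  | true => φB

theorem pairHom_comp_edge {N q : ℕ} [NeZero q] {H : Type*} [Group H] (φA φB : Gamma0 N →* H)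
    (hagree : ∀ c : Gamma0 (N * q), φA (inclC N q c) = φB (conjC N q c)) (i : Bool) :
    (pairHom φA φB i).comp (edge N q i) = φA.comp (inclC N q) := by
  cases i
  · rfl
  · exact MonoidHom.ext fun c => (hagree c).symm

/-- AMALGAM, existence: the glued homomorphism -/
def glue {N q : ℕ} [NeZero q] (hq : q.Prime) (hqN : ¬ q ∣ N) {H : Type*} [Group H]
    (φA φB : Gamma0 N →* H)
    (hagree : ∀ c : Gamma0 (N * q), φA (inclC N q c) = φB (conjC N q c)) : GammaQ N q →* H :=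
  (PushoutI.lift (pairHom φA φB) (φA.comp (inclC N q)) (pairHom_comp_edge φA φB hagree)).comp
    (amalgEquiv hq hqN).symm.toMonoidHom

theorem amalgEquiv_symm_incA {N q : ℕ} [NeZero q] (hq : q.Prime) (hqN : ¬ q ∣ N) (g : Gamma0 N) :
    (amalgEquiv hq hqN).symm (incA N q g) = PushoutI.of false g := by
  rw [MulEquiv.symm_apply_eq, amalgEquiv_apply, amalgToGammaQ_of]
  rfl

theorem amalgEquiv_symm_incB {N q : ℕ} [NeZero q] (hq : q.Prime) (hqN : ¬ q ∣ N) (g : Gamma0 N) :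
    (amalgEquiv hq hqN).symm (incB N q g) = PushoutI.of true g := by
  rw [MulEquiv.symm_apply_eq, amalgEquiv_apply, amalgToGammaQ_of]
  rfl

theorem glue_incA {N q : ℕ} [NeZero q] (hq : q.Prime) (hqN : ¬ q ∣ N) {H : Type*} [Group H]
    (φA φB : Gamma0 N →* H)
    (hagree : ∀ c : Gamma0 (N * q), φA (inclC N q c) = φB (conjC N q c)) (g : Gamma0 N) :
    glue hq hqN φA φB hagree (incA N q g) = φA g := by
  rw [glue, MonoidHom.comp_apply, MulEquiv.toMonoidHom_eq_coe, MonoidHom.coe_coe,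
    amalgEquiv_symm_incA, PushoutI.lift_of]
  rfl

theorem glue_incB {N q : ℕ} [NeZero q] (hq : q.Prime) (hqN : ¬ q ∣ N) {H : Type*} [Group H]
    (φA φB : Gamma0 N →* H)
    (hagree : ∀ c : Gamma0 (N * q), φA (inclC N q c) = φB (conjC N q c)) (g : Gamma0 N) :
    glue hq hqN φA φB hagree (incB N q g) = φB g := by
  rw [glue, MonoidHom.comp_apply, MulEquiv.toMonoidHom_eq_coe, MonoidHom.coe_coe,
    amalgEquiv_symm_incB, PushoutI.lift_of]
  rfl

/-- two homomorphisms on `Γ₀(N)[1/q]` agreeing on both copies of `Γ₀(N)` are equal -/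
theorem hom_ext_GammaQ {N q : ℕ} [NeZero q] (hq : q.Prime) (hqN : ¬ q ∣ N) {H : Type*} [Group H]
    {Φ Ψ : GammaQ N q →* H} (hA : Φ.comp (incA N q) = Ψ.comp (incA N q))
    (hB : Φ.comp (incB N q) = Ψ.comp (incB N q)) : Φ = Ψ := by
  apply MonoidHom.eq_of_eqOn_dense (closure_range_eq_top hq hqN)
  rintro x (⟨g, rfl⟩ | ⟨g, rfl⟩)
  · exact DFunLike.congr_fun hA g
  · exact DFunLike.congr_fun hB g

/-- AMALGAM: the universal property of `Γ₀(N)[1/q] = Γ₀(N) *_{Γ₀(N q)} δ⁻¹ Γ₀(N) δ`. -/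
theorem exists_unique_lift {N q : ℕ} [NeZero q] (hq : q.Prime) (hqN : ¬ q ∣ N) {H : Type*} [Group H]
    (φA φB : Gamma0 N →* H)
    (hagree : ∀ c : Gamma0 (N * q), φA (inclC N q c) = φB (conjC N q c)) :
    ∃! Φ : GammaQ N q →* H, Φ.comp (incA N q) = φA ∧ Φ.comp (incB N q) = φB := by
  refine ⟨glue hq hqN φA φB hagree, ⟨MonoidHom.ext (glue_incA hq hqN φA φB hagree),
    MonoidHom.ext (glue_incB hq hqN φA φB hagree)⟩, ?_⟩
  rintro Ψ ⟨hA, hB⟩
  apply hom_ext_GammaQ hq hqN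
  · rw [hA]; exact (MonoidHom.ext (glue_incA hq hqN φA φB hagree)).symm
  · rw [hB]; exact (MonoidHom.ext (glue_incB hq hqN φA φB hagree)).symm

/-- IHARA KERNEL (additive language of S30): a pair `(χ₁, χ₂)` of additive characters of `Γ₀(N)`
with `χ₁ c + χ₂ (δ c δ⁻¹) = 0` on `Γ₀(N q)` comes from ONE additive character `Φ` of `Γ₀(N)[1/q]`:
`Φ ∘ incA = χ₁`, `Φ ∘ incB = - χ₂`. -/
theorem ihara_kernel {N q : ℕ} [NeZero q] (hq : q.Prime) (hqN : ¬ q ∣ N) {A : Type*}
    [AddCommGroup A] (χ₁ χ₂ : Additive (Gamma0 N) →+ A)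
    (h : ∀ c : Gamma0 (N * q),
      χ₁ (Additive.ofMul (inclC N q c)) + χ₂ (Additive.ofMul (conjC N q c)) = 0) :
    ∃ Φ : Additive (GammaQ N q) →+ A,
      (∀ g : Gamma0 N, Φ (Additive.ofMul (incA N q g)) = χ₁ (Additive.ofMul g)) ∧
      (∀ g : Gamma0 N, Φ (Additive.ofMul (incB N q g)) = -χ₂ (Additive.ofMul g)) := by
  set φA : Gamma0 N →* Multiplicative A := AddMonoidHom.toMultiplicativeRight χ₁ with hφA
  set φB : Gamma0 N →* Multiplicative A := AddMonoidHom.toMultiplicativeRight (-χ₂) with hφB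
  have hagree : ∀ c : Gamma0 (N * q), φA (inclC N q c) = φB (conjC N q c) := by
    intro c
    show Multiplicative.ofAdd (χ₁ (Additive.ofMul (inclC N q c)))
      = Multiplicative.ofAdd ((-χ₂) (Additive.ofMul (conjC N q c)))
    rw [AddMonoidHom.neg_apply, eq_neg_of_add_eq_zero_left (h c)]
  refine ⟨MonoidHom.toAdditiveLeft (glue hq hqN φA φB hagree), fun g => ?_, fun g => ?_⟩
  · show Multiplicative.toAdd (glue hq hqN φA φB hagree (incA N q g)) = _
    rw [glue_incA]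
    rfl
  · show Multiplicative.toAdd (glue hq hqN φA φB hagree (incB N q g)) = _
    rw [glue_incB]
    rfl

end Fermat.Agent.S41.Amalgam
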