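import Fermat.Agent.S41.Amalgam.Basic

/-!
# PROJECT R (S41), slice R-Amalgam (2): `conjC : Γ₀(N q) →* Γ₀(N)`, `c ↦ δ c δ⁻¹ = [a, q b; c / q, d]`

and the compatibility `incA (inclC c) = incB (conjC c)`.
-/

set_option autoImplicit false

open CongruenceSubgroup Matrix.SpecialLinearGroup
open scoped MatrixGroups

noncomputable section

namespace Fermat.Agent.S41.Amalgam

theorem Gamma0_mul_dvd {N q : ℕ} (c : Gamma0 (N * q)) : ((N : ℤ) * q) ∣ c.1.1 1 0 := by
  have := Gamma0_dvd c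
  push_cast at this
  exact this

/-- the underlying function of `conjC` -/
def conjCfun (N q : ℕ) [NeZero q] (c : Gamma0 (N * q)) : Gamma0 N :=
  mkG N (c.1.1 0 0) (q * c.1.1 0 1) (c.1.1 1 0 / q) (c.1.1 1 1)
    (by
      have hq : (q : ℤ) ∣ c.1.1 1 0 := dvd_trans (Dvd.intro_left _ rfl) (Gamma0_mul_dvd c)
      have h := det_entries_int c.1
      obtain ⟨m, hm⟩ := hq
      have hq0 : (q : ℤ) ≠ 0 := Int.natCast_ne_zero.mpr (NeZero.ne q)
      rw [hm, Int.mul_ediv_cancel_left _ hq0]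
      rw [hm] at h
      linarith)
    (by
      obtain ⟨m, hm⟩ := Gamma0_mul_dvd c
      have hq0 : (q : ℤ) ≠ 0 := Int.natCast_ne_zero.mpr (NeZero.ne q)
      rw [hm, mul_comm (N : ℤ) q, mul_assoc, Int.mul_ediv_cancel_left _ hq0]
      exact Dvd.intro _ rfl)

theorem conjCfun_10_mul (N q : ℕ) [NeZero q] (c : Gamma0 (N * q)) :
    (q : ℤ) * (conjCfun N q c).1.1 1 0 = c.1.1 1 0 := by
  have hq : (q : ℤ) ∣ c.1.1 1 0 := dvd_trans (Dvd.intro_left _ rfl) (Gamma0_mul_dvd c)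
  show (q : ℤ) * (c.1.1 1 0 / q) = _
  exact Int.mul_ediv_cancel' hq

theorem incB_conjCfun (N q : ℕ) [NeZero q] (c : Gamma0 (N * q)) :
    incB N q (conjCfun N q c) = incA N q (inclC N q c) := by
  apply Subtype.ext
  have hq' : (q : ℚ) ≠ 0 := Nat.cast_ne_zero.mpr (NeZero.ne q)
  apply ext_entries
  · rfl
  · show (((q : ℤ) * c.1.1 0 1 : ℤ) : ℚ) / q = (c.1.1 0 1 : ℚ)
    push_cast
    field_simp
  · show (q : ℚ) * (((conjCfun N q c).1.1 1 0 : ℤ) : ℚ) = (c.1.1 1 0 : ℚ)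
    rw [← conjCfun_10_mul N q c]
    push_cast
    rfl
  · rfl

/-- `conjC : Γ₀(N q) →* Γ₀(N)`, `c ↦ δ c δ⁻¹ = [a, q b; c / q, d]`, `δ = diag(q, 1)`. -/
def conjC (N q : ℕ) [NeZero q] : Gamma0 (N * q) →* Gamma0 N where
  toFun := conjCfun N q
  map_one' := by
    apply incB_injective N q
    rw [incB_conjCfun, map_one, map_one, map_one]
  map_mul' c c' := by
    apply incB_injective N q
    rw [incB_conjCfun, map_mul, map_mul, map_mul, incB_conjCfun, incB_conjCfun]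

theorem incB_conjC (N q : ℕ) [NeZero q] (c : Gamma0 (N * q)) :
    incB N q (conjC N q c) = incA N q (inclC N q c) := incB_conjCfun N q c

@[simp] theorem conjC_00 (N q : ℕ) [NeZero q] (c : Gamma0 (N * q)) :
    (conjC N q c).1.1 0 0 = c.1.1 0 0 := rfl
@[simp] theorem conjC_01 (N q : ℕ) [NeZero q] (c : Gamma0 (N * q)) :
    (conjC N q c).1.1 0 1 = q * c.1.1 0 1 := rfl
theorem conjC_10 (N q : ℕ) [NeZero q] (c : Gamma0 (N * q)) :
    (q : ℤ) * (conjC N q c).1.1 1 0 = c.1.1 1 0 := conjCfun_10_mul N q c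
@[simp] theorem conjC_11 (N q : ℕ) [NeZero q] (c : Gamma0 (N * q)) :
    (conjC N q c).1.1 1 1 = c.1.1 1 1 := rfl

theorem conjC_injective (N q : ℕ) [NeZero q] : Function.Injective (conjC N q) := by
  intro c c' h
  apply inclC_injective N q
  apply incA_injective N q
  rw [← incB_conjC, ← incB_conjC, h]

/-- membership in the range of `inclC`: `q ∣ c`. -/
theorem mem_range_inclC {N q : ℕ} (g : Gamma0 N) (hcop : Nat.Coprime N q) :
    g ∈ (inclC N q).range ↔ (q : ℤ) ∣ g.1.1 1 0 := by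
  constructor
  · rintro ⟨c, rfl⟩
    exact dvd_trans (Dvd.intro_left _ rfl) (Gamma0_mul_dvd c)
  · intro hq
    have hN := Gamma0_dvd g
    have hNq : ((N * q : ℕ) : ℤ) ∣ g.1.1 1 0 := by
      push_cast
      exact IsCoprime.mul_dvd (Nat.isCoprime_iff_coprime.mpr hcop) hN hq
    refine ⟨⟨g.1, ?_⟩, ?_⟩
    · rw [Gamma0_mem, ZMod.intCast_zmod_eq_zero_iff_dvd]
      exact hNq
    · apply Subtype.ext
      rfl

/-- membership in the range of `conjC`: `q ∣ b`. -/
theorem mem_range_conjC {N q : ℕ} [NeZero q] (g : Gamma0 N) :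
    g ∈ (conjC N q).range ↔ (q : ℤ) ∣ g.1.1 0 1 := by
  constructor
  · rintro ⟨c, rfl⟩
    rw [conjC_01]
    exact Dvd.intro _ rfl
  · rintro ⟨m, hm⟩
    have hN := Gamma0_dvd g
    have hdet := det_entries_int g.1
    refine ⟨⟨mkZ (g.1.1 0 0) m (q * g.1.1 1 0) (g.1.1 1 1) (by rw [hm] at hdet; linarith), ?_⟩, ?_⟩
    · rw [Gamma0_mem, ZMod.intCast_zmod_eq_zero_iff_dvd]
      show ((N * q : ℕ) : ℤ) ∣ q * g.1.1 1 0
      push_cast
      rw [mul_comm (N : ℤ)]
      exact mul_dvd_mul_left _ hN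
    · apply Subtype.ext
      apply ext_entries_int
      · rfl
      · rw [conjC_01]; exact hm.symm
      · have hq0 : (q : ℤ) ≠ 0 := Int.natCast_ne_zero.mpr (NeZero.ne q)
        apply mul_left_cancel₀ hq0
        rw [conjC_10]
        rfl
      · rfl

end Fermat.Agent.S41.Amalgam
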