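import Fermat.Agent.S41.Amalgam.ConjC

/-!
# PROJECT R (S41), slice R-Amalgam (5): integer lemmas for the generation of `Γ₀(N)[1/q]`

* `exists_prop`: a singular `2 × 2` matrix modulo a prime `q` whose second column is nonzero has its
  first column proportional to the second;
* `exists_crt`: the Chinese remainder theorem in the form `x ≡ λ (q)`, `x ≡ 1 (N)`;
* `step_one`: for `M` singular and nonzero modulo `q` there is `a ∈ Γ₀(N)` with `(M a) e₁ ≡ 0 (q)`;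
* `step_two`: if `P e₁ ≡ 0`, `P e₂ ≢ 0 (q)` and `q² ∣ det P`, there is `x ≡ 1 (N)` with
  `q² ∣ - P e₁ + q x P e₂`.
-/

set_option autoImplicit false

open CongruenceSubgroup Matrix.SpecialLinearGroup
open scoped MatrixGroups

noncomputable section

namespace Fermat.Agent.S41.Amalgam

theorem exists_inv_mod {q : ℕ} (hq : q.Prime) {x : ℤ} (hx : ¬ (q : ℤ) ∣ x) :
    ∃ μ : ℤ, (q : ℤ) ∣ μ * x - 1 := by
  have hcop : IsCoprime (q : ℤ) x := (Nat.prime_iff_prime_int.mp hq).coprime_iff_not_dvd.mpr hx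
  obtain ⟨u, v, huv⟩ := hcop
  exact ⟨v, ⟨-u, by linear_combination huv⟩⟩

theorem exists_prop {q : ℕ} (hq : q.Prime) {x1 y1 x2 y2 : ℤ}
    (hdet : (q : ℤ) ∣ x1 * y2 - y1 * x2) (hne : ¬ ((q : ℤ) ∣ x2 ∧ (q : ℤ) ∣ y2)) :
    ∃ l : ℤ, (q : ℤ) ∣ x1 - l * x2 ∧ (q : ℤ) ∣ y1 - l * y2 := by
  have hqp : Prime (q : ℤ) := Nat.prime_iff_prime_int.mp hq
  by_cases hx2 : (q : ℤ) ∣ x2
  · have hy2 : ¬ (q : ℤ) ∣ y2 := fun h => hne ⟨hx2, h⟩
    obtain ⟨μ, t, hμ⟩ := exists_inv_mod hq hy2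
    obtain ⟨s, hs⟩ := hdet
    refine ⟨y1 * μ, ?_, ?_⟩
    · have h : (q : ℤ) ∣ y2 * (x1 - y1 * μ * x2) := by
        refine ⟨s - y1 * x2 * t, ?_⟩
        linear_combination hs - y1 * x2 * hμ
      exact (hqp.dvd_or_dvd h).resolve_left hy2
    · exact ⟨-y1 * t, by linear_combination (-y1) * hμ⟩
  · obtain ⟨μ, t, hμ⟩ := exists_inv_mod hq hx2
    obtain ⟨s, hs⟩ := hdet
    refine ⟨x1 * μ, ?_, ?_⟩
    · exact ⟨-x1 * t, by linear_combination (-x1) * hμ⟩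
    · have h : (q : ℤ) ∣ x2 * (y1 - x1 * μ * y2) := by
        refine ⟨-s - x1 * y2 * t, ?_⟩
        linear_combination (-1 : ℤ) * hs - x1 * y2 * hμ
      exact (hqp.dvd_or_dvd h).resolve_left hx2

theorem exists_crt {N q : ℕ} (hcop : Nat.Coprime N q) (l : ℤ) :
    ∃ x : ℤ, (q : ℤ) ∣ x - l ∧ (N : ℤ) ∣ 1 - x := by
  have h : IsCoprime (N : ℤ) (q : ℤ) := Nat.isCoprime_iff_coprime.mpr hcop
  obtain ⟨u, v, huv⟩ := h
  -- `u N + v q = 1`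
  refine ⟨l * (u * N) + v * q, ⟨v - l * v, by linear_combination l * huv⟩,
    ⟨u - l * u, by linear_combination (-1 : ℤ) * huv⟩⟩

theorem exists_bezout_q {N q : ℕ} (hcop : Nat.Coprime N q) :
    ∃ b d : ℤ, (q : ℤ) * d - b * N = 1 := by
  have h : IsCoprime (N : ℤ) (q : ℤ) := Nat.isCoprime_iff_coprime.mpr hcop
  obtain ⟨u, v, huv⟩ := h
  exact ⟨-u, v, by linear_combination huv⟩

/-- step one: kill the first column modulo `q` by an element of `Γ₀(N)` -/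
theorem step_one {N q : ℕ} (hq : q.Prime) (hcop : Nat.Coprime N q) {m00 m01 m10 m11 : ℤ}
    (hdet : (q : ℤ) ∣ m00 * m11 - m01 * m10) :
    ∃ a : Gamma0 N, (q : ℤ) ∣ m00 * a.1.1 0 0 + m01 * a.1.1 1 0 ∧
      (q : ℤ) ∣ m10 * a.1.1 0 0 + m11 * a.1.1 1 0 := by
  by_cases hcol2 : (q : ℤ) ∣ m01 ∧ (q : ℤ) ∣ m11
  · obtain ⟨b, d, hbd⟩ := exists_bezout_q hcop
    refine ⟨mkG N q b N d hbd (dvd_refl _), ?_, ?_⟩
    · simp only [mkG_00, mkG_10]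
      exact dvd_add (Dvd.intro_left _ rfl) (Dvd.dvd.mul_right hcol2.1 _)
    · simp only [mkG_00, mkG_10]
      exact dvd_add (Dvd.intro_left _ rfl) (Dvd.dvd.mul_right hcol2.2 _)
  · have hdet' : (q : ℤ) ∣ m00 * m11 - m10 * m01 := by
      rw [mul_comm m10 m01]; exact hdet
    obtain ⟨l, ⟨s0, hs0⟩, ⟨s1, hs1⟩⟩ := exists_prop hq hdet' hcol2
    -- `N N' ≡ 1 (q)`
    have hNq : ¬ (q : ℤ) ∣ (N : ℤ) := by
      intro h
      have := Int.natCast_dvd_natCast.mp h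
      have h1 := Nat.dvd_gcd this (dvd_refl q)
      rw [Nat.Coprime] at hcop
      rw [hcop] at h1
      exact hq.one_lt.ne' (Nat.dvd_one.mp h1)
    obtain ⟨N', t, hN'⟩ := exists_inv_mod hq hNq
    refine ⟨mkG N 1 0 (N * (-l * N')) 1 (by ring) (Dvd.intro _ rfl), ?_, ?_⟩
    · simp only [mkG_00, mkG_10]
      exact ⟨s0 - m01 * l * t, by linear_combination hs0 - m01 * l * hN'⟩
    · simp only [mkG_00, mkG_10]
      exact ⟨s1 - m11 * l * t, by linear_combination hs1 - m11 * l * hN'⟩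

/-- step two: after step one, find `x ≡ 1 (N)` making the second column of
`P * [q, -1; q² (1 - x), q x]` divisible by `q²`. -/
theorem step_two {N q : ℕ} (hq : q.Prime) (hcop : Nat.Coprime N q) {p00 p01 p10 p11 : ℤ}
    (h00 : (q : ℤ) ∣ p00) (h10 : (q : ℤ) ∣ p10)
    (hdet : (q : ℤ) ^ 2 ∣ p00 * p11 - p01 * p10) (hcol2 : ¬ ((q : ℤ) ∣ p01 ∧ (q : ℤ) ∣ p11)) :
    ∃ x : ℤ, (N : ℤ) ∣ 1 - x ∧ (q : ℤ) ^ 2 ∣ -p00 + q * x * p01 ∧
      (q : ℤ) ^ 2 ∣ -p10 + q * x * p11 := by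
  obtain ⟨c0, hc0⟩ := h00
  obtain ⟨c1, hc1⟩ := h10
  have hq0 : (q : ℤ) ≠ 0 := Int.natCast_ne_zero.mpr hq.ne_zero
  have hdet' : (q : ℤ) ∣ c0 * p11 - c1 * p01 := by
    obtain ⟨s, hs⟩ := hdet
    refine ⟨s, ?_⟩
    apply mul_left_cancel₀ hq0
    rw [hc0, hc1] at hs
    linear_combination hs
  obtain ⟨l, ⟨s0, hs0⟩, ⟨s1, hs1⟩⟩ := exists_prop hq hdet' hcol2
  obtain ⟨x, ⟨t, ht⟩, hx⟩ := exists_crt hcop l
  refine ⟨x, hx, ?_, ?_⟩
  · refine ⟨-s0 + t * p01, ?_⟩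
    rw [hc0]
    linear_combination (-(q : ℤ)) * hs0 + (q : ℤ) * p01 * ht
  · refine ⟨-s1 + t * p11, ?_⟩
    rw [hc1]
    linear_combination (-(q : ℤ)) * hs1 + (q : ℤ) * p11 * ht

end Fermat.Agent.S41.Amalgam
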