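import Fermat.Agent.S41.Amalgam.Injective
import Fermat.Agent.S41.Amalgam.IntStep

/-!
# PROJECT R (S41), slice R-Amalgam (6): `Γ₀(N)[1/q]` is generated by its two copies of `Γ₀(N)`

`amalgToGammaQ_surjective`: the canonical map `Γ₀(N) *_{Γ₀(N q)} Γ₀(N) → Γ₀(N)[1/q]` is onto, by
induction on the least `k` with `q ^ k g` integral.  Together with `amalgToGammaQ_injective` this
gives the isomorphism `amalgEquiv`.
-/

set_option autoImplicit false

open CongruenceSubgroup Matrix.SpecialLinearGroup Monoid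
open scoped MatrixGroups

noncomputable section

namespace Fermat.Agent.S41.Amalgam

theorem scaled_mul_castQ {q k : ℕ} {g : SL(2, ℚ)} {M : Matrix (Fin 2) (Fin 2) ℤ}
    (hM : Scaled q k g M) (a : SL(2, ℤ)) : Scaled q k (g * castQ a) (M * a.1) := by
  intro i j
  rw [coe_mul, Matrix.mul_apply, Fin.sum_univ_two, Matrix.mul_apply, Fin.sum_univ_two]
  push_cast
  rw [← hM i 0, ← hM i 1]
  simp only [castQ_apply]
  ring

/-- the integer matrix `q • (δ⁻¹ b δ)` -/
def qB (q : ℕ) (b : SL(2, ℤ)) : Matrix (Fin 2) (Fin 2) ℤ :=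
  !![(q : ℤ) * b.1 0 0, b.1 0 1; (q : ℤ) ^ 2 * b.1 1 0, (q : ℤ) * b.1 1 1]

theorem scaled_mul_conjDiag {q k : ℕ} (hq : q ≠ 0) {g : SL(2, ℚ)}
    {P M2 : Matrix (Fin 2) (Fin 2) ℤ} (hP : Scaled q (k + 1) g P) (b : SL(2, ℤ))
    (h : ∀ i j, (P * qB q b) i j = (q : ℤ) ^ 2 * M2 i j) :
    Scaled q k (g * conjDiag (q : ℚ) (Nat.cast_ne_zero.mpr hq) (castQ b)) M2 := by
  have hq' : (q : ℚ) ≠ 0 := Nat.cast_ne_zero.mpr hq
  intro i j
  have h2 : (q : ℚ) ^ 2 ≠ 0 := pow_ne_zero _ hq'
  apply mul_left_cancel₀ h2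
  have hij := h i j
  rw [Matrix.mul_apply, Fin.sum_univ_two] at hij
  have hij' : ((P i 0 * qB q b 0 j + P i 1 * qB q b 1 j : ℤ) : ℚ) = (((q : ℤ) ^ 2 * M2 i j : ℤ) : ℚ) := by
    rw [hij]
  push_cast at hij'
  rw [← hij', ← hP i 0, ← hP i 1, coe_mul, Matrix.mul_apply, Fin.sum_univ_two]
  fin_cases j
  · simp only [Fin.zero_eta, Fin.isValue, conjDiag_00, conjDiag_10, castQ_apply, qB, Matrix.of_apply,
      Matrix.cons_val', Matrix.cons_val_zero, Matrix.cons_val_fin_one, Matrix.cons_val_one]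
    push_cast
    ring
  · simp only [Fin.mk_one, Fin.isValue, conjDiag_01, conjDiag_11, castQ_apply, qB, Matrix.of_apply,
      Matrix.cons_val', Matrix.cons_val_one, Matrix.cons_val_fin_one, Matrix.cons_val_zero]
    push_cast
    field_simp
    ring

theorem exists_scaled {N q : ℕ} (g : GammaQ N q) :
    ∃ (k : ℕ) (M : Matrix (Fin 2) (Fin 2) ℤ), Scaled q k g.1 M := by
  obtain ⟨hg, -⟩ := g.2
  obtain ⟨k00, n00, h00⟩ := hg 0 0
  obtain ⟨k01, n01, h01⟩ := hg 0 1
  obtain ⟨k10, n10, h10⟩ := hg 1 0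
  obtain ⟨k11, n11, h11⟩ := hg 1 1
  refine ⟨k00 + k01 + k10 + k11,
    !![(q : ℤ) ^ (k01 + k10 + k11) * n00, (q : ℤ) ^ (k00 + k10 + k11) * n01;
       (q : ℤ) ^ (k00 + k01 + k11) * n10, (q : ℤ) ^ (k00 + k01 + k10) * n11], ?_⟩
  intro i j
  fin_cases i <;> fin_cases j
  · simp only [Fin.zero_eta, Fin.isValue, Matrix.of_apply, Matrix.cons_val', Matrix.cons_val_zero,
      Matrix.cons_val_fin_one]
    push_cast
    rw [← h00]
    ring
  · simp only [Fin.zero_eta, Fin.isValue, Fin.mk_one, Matrix.of_apply, Matrix.cons_val',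
      Matrix.cons_val_one, Matrix.cons_val_fin_one, Matrix.cons_val_zero]
    push_cast
    rw [← h01]
    ring
  · simp only [Fin.mk_one, Fin.isValue, Fin.zero_eta, Matrix.of_apply, Matrix.cons_val',
      Matrix.cons_val_zero, Matrix.cons_val_fin_one, Matrix.cons_val_one]
    push_cast
    rw [← h10]
    ring
  · simp only [Fin.mk_one, Fin.isValue, Matrix.of_apply, Matrix.cons_val', Matrix.cons_val_one,
      Matrix.cons_val_fin_one]
    push_cast
    rw [← h11]
    ring

theorem scaled_det {q k : ℕ} {g : SL(2, ℚ)} {M : Matrix (Fin 2) (Fin 2) ℤ} (hM : Scaled q k g M) :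
    M 0 0 * M 1 1 - M 0 1 * M 1 0 = (q : ℤ) ^ (2 * k) := by
  have h := det_entries g
  have : ((M 0 0 * M 1 1 - M 0 1 * M 1 0 : ℤ) : ℚ) = (((q : ℤ) ^ (2 * k) : ℤ) : ℚ) := by
    push_cast
    rw [← hM 0 0, ← hM 1 1, ← hM 0 1, ← hM 1 0]
    have e : (q : ℚ) ^ (2 * k) = (q : ℚ) ^ k * (q : ℚ) ^ k * 1 := by rw [mul_one, ← pow_add, two_mul]
    rw [e]
    linear_combination ((q : ℚ) ^ k * (q : ℚ) ^ k) * h
  exact_mod_cast this

theorem mem_range_of_scaled {N q : ℕ} [NeZero q] (hq : q.Prime) (hqN : ¬ q ∣ N) :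
    ∀ (k : ℕ) (g : GammaQ N q) (M : Matrix (Fin 2) (Fin 2) ℤ), Scaled q k g.1 M →
      g ∈ (amalgToGammaQ N q).range := by
  have hcop : Nat.Coprime N q := ((Nat.Prime.coprime_iff_not_dvd hq).mpr hqN).symm
  have hq0 : (q : ℤ) ≠ 0 := Int.natCast_ne_zero.mpr hq.ne_zero
  have hq' : (q : ℚ) ≠ 0 := Nat.cast_ne_zero.mpr hq.ne_zero
  intro k
  induction k with
  | zero =>
    intro g M hM
    have hdet := scaled_det hM
    simp only [mul_zero, pow_zero] at hdet
    have hN : (N : ℤ) ∣ M 1 0 := by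
      obtain ⟨-, j, n, hn⟩ := g.2
      have h10 := hM 1 0
      simp only [pow_zero, one_mul] at h10
      rw [h10] at hn
      have hn' : (q : ℤ) ^ j * M 1 0 = N * n := by exact_mod_cast hn
      have hcop' : IsCoprime (N : ℤ) ((q : ℤ) ^ j) :=
        (Nat.isCoprime_iff_coprime.mpr hcop).pow_right
      exact hcop'.dvd_of_dvd_mul_left ⟨n, hn'⟩
    refine ⟨PushoutI.of false (mkG N (M 0 0) (M 0 1) (M 1 0) (M 1 1) hdet hN), ?_⟩
    rw [amalgToGammaQ_of]
    apply Subtype.ext
    apply ext_entries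
    · have := hM 0 0; simp only [pow_zero, one_mul] at this; rw [this]; rfl
    · have := hM 0 1; simp only [pow_zero, one_mul] at this; rw [this]; rfl
    · have := hM 1 0; simp only [pow_zero, one_mul] at this; rw [this]; rfl
    · have := hM 1 1; simp only [pow_zero, one_mul] at this; rw [this]; rfl
  | succ k ih =>
    intro g M hM
    by_cases hall : ∀ i j, (q : ℤ) ∣ M i j
    · -- `q ^ k g` is already integral
      choose M' hM' using hall
      refine ih g (Matrix.of M') ?_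
      intro i j
      apply mul_left_cancel₀ hq'
      have := hM i j
      rw [hM' i j] at this
      push_cast at this
      rw [Matrix.of_apply, ← this]
      ring
    · have hdet := scaled_det hM
      have hdetq : (q : ℤ) ∣ M 0 0 * M 1 1 - M 0 1 * M 1 0 := by
        rw [hdet]
        exact dvd_pow_self _ (by omega)
      obtain ⟨a, ha0, ha1⟩ := step_one (N := N) hq hcop hdetq
      have hdeta := det_entries_int a.1
      -- the matrix `P = M a`
      have hP := scaled_mul_castQ hM a.1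
      set P : Matrix (Fin 2) (Fin 2) ℤ := M * a.1.1 with hPdef
      have hP00 : P 0 0 = M 0 0 * a.1.1 0 0 + M 0 1 * a.1.1 1 0 := by
        rw [hPdef, Matrix.mul_apply, Fin.sum_univ_two]
      have hP10 : P 1 0 = M 1 0 * a.1.1 0 0 + M 1 1 * a.1.1 1 0 := by
        rw [hPdef, Matrix.mul_apply, Fin.sum_univ_two]
      have hP01 : P 0 1 = M 0 0 * a.1.1 0 1 + M 0 1 * a.1.1 1 1 := by
        rw [hPdef, Matrix.mul_apply, Fin.sum_univ_two]
      have hP11 : P 1 1 = M 1 0 * a.1.1 0 1 + M 1 1 * a.1.1 1 1 := by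
        rw [hPdef, Matrix.mul_apply, Fin.sum_univ_two]
      have hq00 : (q : ℤ) ∣ P 0 0 := by rw [hP00]; exact ha0
      have hq10 : (q : ℤ) ∣ P 1 0 := by rw [hP10]; exact ha1
      have hdetP : (q : ℤ) ^ 2 ∣ P 0 0 * P 1 1 - P 0 1 * P 1 0 := by
        have e : P 0 0 * P 1 1 - P 0 1 * P 1 0 = (q : ℤ) ^ (2 * (k + 1)) := by
          rw [hP00, hP01, hP10, hP11, ← hdet]
          linear_combination (M 0 0 * M 1 1 - M 0 1 * M 1 0) * hdeta
        rw [e, mul_add, mul_one, pow_add]
        exact Dvd.intro_left _ rfl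
      have hcol2 : ¬ ((q : ℤ) ∣ P 0 1 ∧ (q : ℤ) ∣ P 1 1) := by
        rintro ⟨h01, h11⟩
        apply hall
        have e00 : M 0 0 = P 0 0 * a.1.1 1 1 - P 0 1 * a.1.1 1 0 := by
          rw [hP00, hP01]; linear_combination (-(M 0 0)) * hdeta
        have e01 : M 0 1 = -(P 0 0 * a.1.1 0 1) + P 0 1 * a.1.1 0 0 := by
          rw [hP00, hP01]; linear_combination (-(M 0 1)) * hdeta
        have e10 : M 1 0 = P 1 0 * a.1.1 1 1 - P 1 1 * a.1.1 1 0 := by
          rw [hP10, hP11]; linear_combination (-(M 1 0)) * hdeta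
        have e11 : M 1 1 = -(P 1 0 * a.1.1 0 1) + P 1 1 * a.1.1 0 0 := by
          rw [hP10, hP11]; linear_combination (-(M 1 1)) * hdeta
        intro i j
        fin_cases i <;> fin_cases j
        · show (q : ℤ) ∣ M 0 0
          rw [e00]
          exact dvd_sub (Dvd.dvd.mul_right hq00 _) (Dvd.dvd.mul_right h01 _)
        · show (q : ℤ) ∣ M 0 1
          rw [e01]
          exact dvd_add (Dvd.dvd.mul_right hq00 _).neg_right (Dvd.dvd.mul_right h01 _)
        · show (q : ℤ) ∣ M 1 0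
          rw [e10]
          exact dvd_sub (Dvd.dvd.mul_right hq10 _) (Dvd.dvd.mul_right h11 _)
        · show (q : ℤ) ∣ M 1 1
          rw [e11]
          exact dvd_add (Dvd.dvd.mul_right hq10 _).neg_right (Dvd.dvd.mul_right h11 _)
      obtain ⟨x, hxN, ⟨e0, he0⟩, ⟨e1, he1⟩⟩ := step_two (N := N) hq hcop hq00 hq10 hdetP hcol2
      obtain ⟨c0, hc0⟩ := hq00
      obtain ⟨c1, hc1⟩ := hq10
      -- the element of `B`
      set b : Gamma0 N := mkG N 1 (-1) (1 - x) x (by ring) hxN with hb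
      set M2 : Matrix (Fin 2) (Fin 2) ℤ :=
        !![c0 + (1 - x) * P 0 1, e0; c1 + (1 - x) * P 1 1, e1] with hM2
      have hstep : ∀ i j, (P * qB q b.1) i j = (q : ℤ) ^ 2 * M2 i j := by
        intro i j
        rw [Matrix.mul_apply, Fin.sum_univ_two]
        fin_cases i <;> fin_cases j
        · simp only [Fin.zero_eta, Fin.isValue, qB, hb, mkG_00, mkG_01, mkG_10, mkG_11, hM2,
            Matrix.of_apply, Matrix.cons_val', Matrix.cons_val_zero, Matrix.cons_val_fin_one,
            Matrix.cons_val_one]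
          rw [hc0]
          ring
        · simp only [Fin.zero_eta, Fin.isValue, Fin.mk_one, qB, hb, mkG_00, mkG_01, mkG_10, mkG_11,
            hM2, Matrix.of_apply, Matrix.cons_val', Matrix.cons_val_zero, Matrix.cons_val_fin_one,
            Matrix.cons_val_one]
          linear_combination he0
        · simp only [Fin.zero_eta, Fin.isValue, Fin.mk_one, qB, hb, mkG_00, mkG_01, mkG_10, mkG_11,
            hM2, Matrix.of_apply, Matrix.cons_val', Matrix.cons_val_zero, Matrix.cons_val_fin_one,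
            Matrix.cons_val_one]
          rw [hc1]
          ring
        · simp only [Fin.isValue, Fin.mk_one, qB, hb, mkG_00, mkG_01, mkG_10, mkG_11,
            hM2, Matrix.of_apply, Matrix.cons_val', Matrix.cons_val_zero, Matrix.cons_val_fin_one,
            Matrix.cons_val_one]
          linear_combination he1
      have hsc := scaled_mul_conjDiag hq.ne_zero hP b.1 hstep
      -- apply the induction hypothesis to `g * incA a * incB b`
      have hmem := ih (g * incA N q a * incB N q b) M2 hsc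
      have hA : incA N q a ∈ (amalgToGammaQ N q).range :=
        ⟨PushoutI.of false a, amalgToGammaQ_of N q false a⟩
      have hB : incB N q b ∈ (amalgToGammaQ N q).range :=
        ⟨PushoutI.of true b, amalgToGammaQ_of N q true b⟩
      have e : g = g * incA N q a * incB N q b * (incB N q b)⁻¹ * (incA N q a)⁻¹ := by group
      rw [e]
      exact mul_mem (mul_mem hmem (inv_mem hB)) (inv_mem hA)

theorem amalgToGammaQ_surjective {N q : ℕ} [NeZero q] (hq : q.Prime) (hqN : ¬ q ∣ N) :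
    Function.Surjective (amalgToGammaQ N q) := by
  intro g
  obtain ⟨k, M, hM⟩ := exists_scaled g
  exact mem_range_of_scaled hq hqN k g M hM

/-- `Γ₀(N) *_{Γ₀(N q)} Γ₀(N) ≃* Γ₀(N)[1/q]` -/
def amalgEquiv {N q : ℕ} [NeZero q] (hq : q.Prime) (hqN : ¬ q ∣ N) : Amalg N q ≃* GammaQ N q :=
  MulEquiv.ofBijective (amalgToGammaQ N q)
    ⟨amalgToGammaQ_injective hq hqN, amalgToGammaQ_surjective hq hqN⟩

theorem amalgEquiv_apply {N q : ℕ} [NeZero q] (hq : q.Prime) (hqN : ¬ q ∣ N) (x : Amalg N q) :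
    amalgEquiv hq hqN x = amalgToGammaQ N q x := rfl

/-- GENERATION: `Γ₀(N)[1/q]` is generated by the two copies of `Γ₀(N)`. -/
theorem closure_range_eq_top {N q : ℕ} [NeZero q] (hq : q.Prime) (hqN : ¬ q ∣ N) :
    Subgroup.closure (Set.range (incA N q) ∪ Set.range (incB N q)) = ⊤ := by
  rw [eq_top_iff]
  rintro g -
  obtain ⟨x, rfl⟩ := amalgToGammaQ_surjective hq hqN g
  induction x using PushoutI.induction_on with
  | of i g =>
    rw [amalgToGammaQ_of]
    cases i
    · exact Subgroup.subset_closure (Or.inl ⟨g, rfl⟩)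
    · exact Subgroup.subset_closure (Or.inr ⟨g, rfl⟩)
  | base h =>
    rw [amalgToGammaQ_base]
    exact Subgroup.subset_closure (Or.inl ⟨_, rfl⟩)
  | mul x y hx hy =>
    rw [map_mul]
    exact mul_mem hx hy

end Fermat.Agent.S41.Amalgam
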