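import Fermat.Agent.S41.Amalgam.Length

/-!
# PROJECT R (S41), slice R-Amalgam (4): the amalgam `Γ₀(N) *_{Γ₀(N q)} Γ₀(N)` injects into
`Γ₀(N)[1/q]`

`Amalg N q := Monoid.PushoutI (edge N q)` over the index type `Bool`, with both vertex groups `Γ₀(N)`
and edge maps `edge false = inclC`, `edge true = conjC`.  The canonical map
`amalgToGammaQ : Amalg N q →* GammaQ N q` (`vert false = incA`, `vert true = incB`) is injective
(`amalgToGammaQ_injective`): along the letters of a normal word the states `StA`/`StB` of
`Length.lean` alternate and the exponent `k` grows by one at every letter of `B ∖ C`.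
-/

set_option autoImplicit false

open CongruenceSubgroup Matrix.SpecialLinearGroup Monoid
open scoped MatrixGroups

noncomputable section

namespace Fermat.Agent.S41.Amalgam

/-- the two vertex groups (both are `Γ₀(N)`) -/
abbrev VG (N : ℕ) : Bool → Type := fun _ => Gamma0 N

/-- the edge maps `Γ₀(N q) → Γ₀(N)`: `false ↦ inclC`, `true ↦ conjC` -/
def edge (N q : ℕ) [NeZero q] : ∀ i : Bool, Gamma0 (N * q) →* VG N i
  | false => inclC N q
  | true => conjC N q

/-- the vertex maps `Γ₀(N) → Γ₀(N)[1/q]`: `false ↦ incA`, `true ↦ incB` -/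
def vert (N q : ℕ) [NeZero q] : ∀ i : Bool, VG N i →* GammaQ N q
  | false => incA N q
  | true => incB N q

theorem vert_comp_edge (N q : ℕ) [NeZero q] (i : Bool) :
    (vert N q i).comp (edge N q i) = (incA N q).comp (inclC N q) := by
  cases i
  · rfl
  · exact MonoidHom.ext fun c => incB_conjC N q c

theorem edge_injective (N q : ℕ) [NeZero q] (i : Bool) : Function.Injective (edge N q i) := by
  cases i
  · exact inclC_injective N q
  · exact conjC_injective N q

/-- the abstract amalgam `Γ₀(N) *_{Γ₀(N q)} Γ₀(N)` -/
abbrev Amalg (N q : ℕ) [NeZero q] : Type := PushoutI (edge N q)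

/-- the canonical map from the amalgam to `Γ₀(N)[1/q]` -/
def amalgToGammaQ (N q : ℕ) [NeZero q] : Amalg N q →* GammaQ N q :=
  PushoutI.lift (vert N q) ((incA N q).comp (inclC N q)) (vert_comp_edge N q)

@[simp] theorem amalgToGammaQ_of (N q : ℕ) [NeZero q] (i : Bool) (g : VG N i) :
    amalgToGammaQ N q (PushoutI.of i g) = vert N q i g :=
  PushoutI.lift_of _ _ _ g

@[simp] theorem amalgToGammaQ_base (N q : ℕ) [NeZero q] (c : Gamma0 (N * q)) :
    amalgToGammaQ N q (PushoutI.base (edge N q) c) = incA N q (inclC N q c) :=
  PushoutI.lift_base _ _ _ c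

/-- the value of a letter in `SL(2, ℚ)` -/
def letterVal (N q : ℕ) [NeZero q] (l : Σ i : Bool, VG N i) : SL(2, ℚ) :=
  ((vert N q l.1 l.2 : GammaQ N q) : SL(2, ℚ))

/-- the state after a letter with index `last` -/
def St (q : ℕ) (last : Bool) (k : ℕ) (g : SL(2, ℚ)) : Prop :=
  match last with
  | false => StA q k g
  | true => StB q k g

theorem walk {N q : ℕ} [NeZero q] (hq : q.Prime) (hqN : ¬ q ∣ N) :
    ∀ (L : List (Σ i : Bool, VG N i)) (last : Bool) (k : ℕ) (g : SL(2, ℚ)),
      St q last k g → L.IsChain (fun l l' => l.1 ≠ l'.1) →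
      (∀ l ∈ L, l.2 ∉ (edge N q l.1).range) → (∀ l ∈ L.head?, l.1 ≠ last) →
      ∃ (last' : Bool) (k' : ℕ), k ≤ k' ∧ St q last' k' (g * (L.map (letterVal N q)).prod) ∧
        (L ≠ [] → last = false → 1 ≤ k') := by
  have hcop : Nat.Coprime N q := ((Nat.Prime.coprime_iff_not_dvd hq).mpr hqN).symm
  intro L
  induction L with
  | nil =>
    intro last k g hst _ _ _
    exact ⟨last, k, le_rfl, by simpa using hst, fun h => absurd rfl h⟩
  | cons l L ih =>
    intro last k g hst hchain hred hhead
    have hl : l.1 ≠ last := hhead l (by simp)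
    have hchain' : L.IsChain (fun l l' => l.1 ≠ l'.1) := hchain.tail
    have hred' : ∀ l' ∈ L, l'.2 ∉ (edge N q l'.1).range := fun l' hl' =>
      hred l' (List.mem_cons_of_mem _ hl')
    have hhead' : ∀ l' ∈ L.head?, l'.1 ≠ l.1 := by
      intro l' hl'
      cases L with
      | nil => simp at hl'
      | cons l'' L' =>
        simp only [List.head?_cons, Option.mem_def, Option.some.injEq] at hl'
        subst hl'
        have := List.isChain_cons_cons.mp hchain
        exact fun h => this.1 h.symm
    have hlred := hred l (by simp)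
    obtain ⟨i, x⟩ := l
    rw [List.map_cons, List.prod_cons, ← mul_assoc]
    cases i
    · -- a letter of `A ∖ C`; the previous state is `StB`
      have hlast : last = true := by
        cases last
        · exact absurd rfl hl
        · rfl
      subst hlast
      have hx : ¬ (q : ℤ) ∣ x.1.1 1 0 := fun h => hlred ((mem_range_inclC x hcop).mpr h)
      have hst' : St q false k (g * letterVal N q ⟨false, x⟩) := stA_mul_castQ hq hst x.1 hx
      obtain ⟨last', k', hk, hst'', -⟩ := ih false k _ hst' hchain' hred' hhead'
      exact ⟨last', k', hk, hst'', fun _ h => absurd h (by simp)⟩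
    · -- a letter of `B ∖ C`; the previous state is `StA`
      have hlast : last = false := by
        cases last
        · rfl
        · exact absurd rfl hl
      subst hlast
      have hx : ¬ (q : ℤ) ∣ x.1.1 0 1 := fun h => hlred ((mem_range_conjC x).mpr h)
      have hst' : St q true (k + 1) (g * letterVal N q ⟨true, x⟩) :=
        stB_mul_conjDiag hq hst x.1 hx
      obtain ⟨last', k', hk, hst'', -⟩ := ih true (k + 1) _ hst' hchain' hred' hhead'
      exact ⟨last', k', by omega, hst'', fun _ _ => by omega⟩

theorem not_st_one {q : ℕ} {last : Bool} {k : ℕ} (hk : 1 ≤ k) : ¬ St q last k 1 := by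
  cases last
  · exact not_stA_one hk
  · exact not_stB_one

/-- an element of a transversal set lying in the base range is `1` -/
theorem eq_one_of_mem_set_of_mem_range {N q : ℕ} [NeZero q]
    (d : PushoutI.NormalWord.Transversal (edge N q)) (i : Bool) (g : VG N i) (hg : g ∈ d.set i)
    (hr : g ∈ (edge N q i).range) : g = 1 := by
  have hcompl := d.compl i
  have hinj := hcompl.1
  have h1 : (1 : VG N i) ∈ (edge N q i).range := one_mem _
  have : ((⟨g, hr⟩ : (edge N q i).range), (⟨1, d.one_mem i⟩ : d.set i))
      = ((⟨1, h1⟩ : (edge N q i).range), (⟨g, hg⟩ : d.set i)) := by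
    apply hinj
    simp
  have h2 := congrArg (fun p => (p.1 : VG N i)) this
  exact h2

theorem amalgToGammaQ_ofCoprodI_prod (N q : ℕ) [NeZero q] (w : CoprodI.Word (VG N)) :
    ((amalgToGammaQ N q (PushoutI.ofCoprodI w.prod) : GammaQ N q) : SL(2, ℚ))
      = (w.toList.map (letterVal N q)).prod := by
  rw [CoprodI.Word.prod, map_list_prod, map_list_prod, List.map_map, List.map_map]
  rw [← Subgroup.coe_subtype, map_list_prod, List.map_map]
  congr 1

theorem amalgToGammaQ_injective {N q : ℕ} [NeZero q] (hq : q.Prime) (hqN : ¬ q ∣ N) :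
    Function.Injective (amalgToGammaQ N q) := by
  rw [injective_iff_map_eq_one]
  intro x hx
  obtain ⟨d⟩ := PushoutI.NormalWord.transversal_nonempty (edge N q) (edge_injective N q)
  set w : PushoutI.NormalWord d := PushoutI.NormalWord.equiv x with hw
  have hxw : w.prod = x := (PushoutI.NormalWord.equiv (d := d)).symm_apply_apply x
  have hval : (castQ (w.head : Gamma0 (N * q)).1) * (w.toList.map (letterVal N q)).prod = 1 := by
    have h1 := congrArg (fun y : GammaQ N q => (y : SL(2, ℚ))) hx
    simp only [Subgroup.coe_one] at h1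
    rw [← hxw, PushoutI.NormalWord.prod, map_mul, Subgroup.coe_mul,
      amalgToGammaQ_ofCoprodI_prod, amalgToGammaQ_base] at h1
    exact h1
  have hred : ∀ l ∈ w.toList, l.2 ∉ (edge N q l.1).range := by
    rintro ⟨i, g⟩ hl hr
    exact w.ne_one _ hl (eq_one_of_mem_set_of_mem_range d i g (w.normalized i g hl) hr)
  have hchain := w.chain_ne
  rcases hL : w.toList with _ | ⟨l, L⟩
  · -- the empty word
    rw [hL] at hval
    simp only [List.map_nil, List.prod_nil, mul_one] at hval
    have hhead : w.head = 1 := by
      apply Subtype.ext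
      apply castQ_injective
      rw [hval]
      simp
    rw [← hxw, PushoutI.NormalWord.prod, hhead, map_one, one_mul, CoprodI.Word.prod, hL]
    simp
  · exfalso
    rw [hL] at hval hred hchain
    obtain ⟨i, a⟩ := l
    cases i
    · -- the first letter is in `A ∖ C`
      rw [List.map_cons, List.prod_cons, ← mul_assoc] at hval
      have e : castQ (w.head : Gamma0 (N * q)).1 * letterVal N q ⟨false, a⟩
          = castQ ((w.head : Gamma0 (N * q)).1 * a.1) := by
        rw [map_mul]
        rfl
      rw [e] at hval
      have hst : St q false 0 (castQ ((w.head : Gamma0 (N * q)).1 * a.1)) := stA_castQ hq _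
      have hhead' : ∀ l' ∈ L.head?, l'.1 ≠ false := by
        intro l' hl'
        cases L with
        | nil => simp at hl'
        | cons l'' L' =>
          simp only [List.head?_cons, Option.mem_def, Option.some.injEq] at hl'
          subst hl'
          have := List.isChain_cons_cons.mp hchain
          exact fun h => this.1 h.symm
      obtain ⟨last', k', -, hst', hk'⟩ := walk hq hqN L false 0 _ hst hchain.tail
        (fun l' hl' => hred l' (List.mem_cons_of_mem _ hl')) hhead'
      rw [hval] at hst'
      by_cases hLe : L = []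
      · subst hLe
        simp only [List.map_nil, List.prod_nil, mul_one] at hval
        have h1 : (w.head : Gamma0 (N * q)).1 * a.1 = 1 := by
          apply castQ_injective
          rw [hval]
          simp
        apply hred ⟨false, a⟩ (by simp)
        refine ⟨w.head⁻¹, ?_⟩
        apply Subtype.ext
        show ((w.head⁻¹ : Gamma0 (N * q)) : SL(2, ℤ)) = a.1
        rw [Subgroup.coe_inv]
        exact inv_eq_of_mul_eq_one_right h1
      · exact not_st_one (hk' hLe rfl) hst'
    · -- the first letter is in `B ∖ C`
      have hst : St q false 0 (castQ (w.head : Gamma0 (N * q)).1) := stA_castQ hq _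
      obtain ⟨last', k', -, hst', hk'⟩ := walk hq hqN (⟨true, a⟩ :: L) false 0 _ hst hchain hred
        (by simp)
      rw [hval] at hst'
      exact not_st_one (hk' (by simp) rfl) hst'

end Fermat.Agent.S41.Amalgam
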