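import Fermat.Agent.S41.Amalgam.ConjC

/-!
# PROJECT R (S41), slice R-Amalgam (3): the `q`-adic bookkeeping along an alternating word

For `g : SL(2, ℚ)` and `k : ℕ`, `Scaled q k g M` says that `q ^ k • g` is the integer matrix `M`.

* `StA q k g`: `q ^ k g = M` is integral and the FIRST column of `M` is nonzero modulo `q`
  (state after a letter of `A`, or at the start);
* `StB q k g`: `1 ≤ k`, `q ^ k g = M` is integral, the first column of `M` vanishes modulo `q` and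
  the second column does not (state after a letter of `B ∖ C`).

Transitions: `StA k g → StB (k + 1) (g * b)` for `b ∈ B ∖ C`, `StB k g → StA k (g * a)` for
`a ∈ A ∖ C`.  Neither `StB k` nor (`StA k` with `1 ≤ k`) holds for `g = 1`.
-/

set_option autoImplicit false

open CongruenceSubgroup Matrix.SpecialLinearGroup
open scoped MatrixGroups

noncomputable section

namespace Fermat.Agent.S41.Amalgam

/-- `q ^ k • g` is the integer matrix `M`. -/
def Scaled (q k : ℕ) (g : SL(2, ℚ)) (M : Matrix (Fin 2) (Fin 2) ℤ) : Prop :=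
  ∀ i j, (q : ℚ) ^ k * g.1 i j = (M i j : ℚ)

/-- state after a letter of `A` (or at the start) -/
def StA (q k : ℕ) (g : SL(2, ℚ)) : Prop :=
  ∃ M : Matrix (Fin 2) (Fin 2) ℤ, Scaled q k g M ∧ ¬ ((q : ℤ) ∣ M 0 0 ∧ (q : ℤ) ∣ M 1 0)

/-- state after a letter of `B ∖ C` -/
def StB (q k : ℕ) (g : SL(2, ℚ)) : Prop :=
  1 ≤ k ∧ ∃ M : Matrix (Fin 2) (Fin 2) ℤ, Scaled q k g M ∧
    ((q : ℤ) ∣ M 0 0 ∧ (q : ℤ) ∣ M 1 0) ∧ ¬ ((q : ℤ) ∣ M 0 1 ∧ (q : ℤ) ∣ M 1 1)

theorem stA_castQ {q : ℕ} (hq : q.Prime) (a : SL(2, ℤ)) : StA q 0 (castQ a) := by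
  refine ⟨a.1, fun i j => by simp, ?_⟩
  rintro ⟨h0, h1⟩
  have hdet := det_entries_int a
  have : (q : ℤ) ∣ 1 := by
    rw [← hdet]
    exact dvd_sub (Dvd.dvd.mul_right h0 _) (Dvd.dvd.mul_left h1 _)
  have h1' := Int.eq_one_of_dvd_one (Int.natCast_nonneg q) this
  have : q = 1 := by exact_mod_cast h1'
  exact hq.one_lt.ne' this

theorem stA_mul_castQ {q k : ℕ} (hq : q.Prime) {g : SL(2, ℚ)} (hg : StB q k g) (a : SL(2, ℤ))
    (ha : ¬ (q : ℤ) ∣ a.1 1 0) : StA q k (g * castQ a) := by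
  obtain ⟨-, M, hM, ⟨h00, h10⟩, hcol2⟩ := hg
  have hqp : Prime (q : ℤ) := Nat.prime_iff_prime_int.mp hq
  refine ⟨M * a.1, fun i j => ?_, ?_⟩
  · rw [coe_mul, Matrix.mul_apply, Fin.sum_univ_two, Matrix.mul_apply, Fin.sum_univ_two]
    push_cast
    rw [← hM i 0, ← hM i 1]
    simp only [castQ_apply]
    ring
  · rintro ⟨h0, h1⟩
    rw [Matrix.mul_apply, Fin.sum_univ_two] at h0 h1
    apply hcol2
    constructor
    · have : (q : ℤ) ∣ M 0 1 * a.1 1 0 := by
        have := dvd_sub h0 (Dvd.dvd.mul_right h00 (a.1 0 0))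
        simpa using this
      exact (hqp.dvd_or_dvd this).resolve_right ha
    · have : (q : ℤ) ∣ M 1 1 * a.1 1 0 := by
        have := dvd_sub h1 (Dvd.dvd.mul_right h10 (a.1 0 0))
        simpa using this
      exact (hqp.dvd_or_dvd this).resolve_right ha

theorem stB_mul_conjDiag {q k : ℕ} (hq : q.Prime) {g : SL(2, ℚ)} (hg : StA q k g) (b : SL(2, ℤ))
    (hb : ¬ (q : ℤ) ∣ b.1 0 1) :
    StB q (k + 1) (g * conjDiag (q : ℚ) (Nat.cast_ne_zero.mpr hq.ne_zero) (castQ b)) := by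
  obtain ⟨M, hM, hcol1⟩ := hg
  have hqp : Prime (q : ℤ) := Nat.prime_iff_prime_int.mp hq
  have hq' : (q : ℚ) ≠ 0 := Nat.cast_ne_zero.mpr hq.ne_zero
  refine ⟨Nat.le_add_left 1 k,
    M * !![(q : ℤ) * b.1 0 0, b.1 0 1; (q : ℤ) ^ 2 * b.1 1 0, (q : ℤ) * b.1 1 1], fun i j => ?_, ⟨?_, ?_⟩, ?_⟩
  · rw [coe_mul, Matrix.mul_apply, Fin.sum_univ_two, Matrix.mul_apply, Fin.sum_univ_two]
    push_cast
    rw [← hM i 0, ← hM i 1]
    fin_cases j
    · simp only [Fin.zero_eta, Fin.isValue, conjDiag_00, conjDiag_10, castQ_apply, Matrix.of_apply,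
        Matrix.cons_val', Matrix.cons_val_zero, Matrix.cons_val_fin_one, Matrix.cons_val_one]
      push_cast
      ring
    · simp only [Fin.mk_one, Fin.isValue, conjDiag_01, conjDiag_11, castQ_apply, Matrix.of_apply,
        Matrix.cons_val', Matrix.cons_val_one, Matrix.cons_val_fin_one, Matrix.cons_val_zero]
      push_cast
      field_simp
      ring
  · rw [Matrix.mul_apply, Fin.sum_univ_two]
    simp only [Fin.isValue, Matrix.of_apply, Matrix.cons_val', Matrix.cons_val_zero,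
      Matrix.cons_val_fin_one, Matrix.cons_val_one]
    exact dvd_add (Dvd.intro _ (by ring : (q : ℤ) * (M 0 0 * b.1 0 0) = _))
      (Dvd.intro _ (by ring : (q : ℤ) * (M 0 1 * q * b.1 1 0) = _))
  · rw [Matrix.mul_apply, Fin.sum_univ_two]
    simp only [Fin.isValue, Matrix.of_apply, Matrix.cons_val', Matrix.cons_val_zero,
      Matrix.cons_val_fin_one, Matrix.cons_val_one]
    exact dvd_add (Dvd.intro _ (by ring : (q : ℤ) * (M 1 0 * b.1 0 0) = _))
      (Dvd.intro _ (by ring : (q : ℤ) * (M 1 1 * q * b.1 1 0) = _))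
  · rintro ⟨h0, h1⟩
    rw [Matrix.mul_apply, Fin.sum_univ_two] at h0 h1
    simp only [Fin.isValue, Matrix.of_apply, Matrix.cons_val', Matrix.cons_val_zero,
      Matrix.cons_val_fin_one, Matrix.cons_val_one] at h0 h1
    apply hcol1
    constructor
    · have : (q : ℤ) ∣ M 0 0 * b.1 0 1 := by
        have := dvd_sub h0 (Dvd.intro _ (by ring : (q : ℤ) * (M 0 1 * b.1 1 1) = M 0 1 * (q * b.1 1 1)))
        simpa using this
      exact (hqp.dvd_or_dvd this).resolve_right hb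
    · have : (q : ℤ) ∣ M 1 0 * b.1 0 1 := by
        have := dvd_sub h1 (Dvd.intro _ (by ring : (q : ℤ) * (M 1 1 * b.1 1 1) = M 1 1 * (q * b.1 1 1)))
        simpa using this
      exact (hqp.dvd_or_dvd this).resolve_right hb

theorem scaled_one {q k : ℕ} {M : Matrix (Fin 2) (Fin 2) ℤ} (h : Scaled q k 1 M) :
    M 0 0 = (q : ℤ) ^ k ∧ M 0 1 = 0 ∧ M 1 0 = 0 ∧ M 1 1 = (q : ℤ) ^ k := by
  refine ⟨?_, ?_, ?_, ?_⟩
  · have := h 0 0
    simp only [coe_one, Matrix.one_apply_eq, mul_one] at this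
    exact_mod_cast this.symm
  · have := h 0 1
    simp only [coe_one, ne_eq, zero_ne_one, not_false_eq_true, Matrix.one_apply_ne, mul_zero] at this
    exact_mod_cast this.symm
  · have := h 1 0
    simp only [coe_one, ne_eq, one_ne_zero, not_false_eq_true, Matrix.one_apply_ne, mul_zero] at this
    exact_mod_cast this.symm
  · have := h 1 1
    simp only [coe_one, Matrix.one_apply_eq, mul_one] at this
    exact_mod_cast this.symm

theorem not_stA_one {q k : ℕ} (hk : 1 ≤ k) : ¬ StA q k 1 := by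
  rintro ⟨M, hM, hcol1⟩
  obtain ⟨h00, -, h10, -⟩ := scaled_one hM
  apply hcol1
  rw [h00, h10]
  exact ⟨dvd_pow_self _ (by omega), dvd_zero _⟩

theorem not_stB_one {q k : ℕ} : ¬ StB q k 1 := by
  rintro ⟨hk, M, hM, -, hcol2⟩
  obtain ⟨-, h01, -, h11⟩ := scaled_one hM
  apply hcol2
  rw [h01, h11]
  exact ⟨dvd_zero _, dvd_pow_self _ (by omega)⟩

end Fermat.Agent.S41.Amalgam
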